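import Fermat.Agent.S19.M.Defs
import Fermat.Agent.S19.W.Main
import Fermat.Agent.S19.H.RegRep

/-!
# S19 / M5 : `HasRep` for every Galois submodule of `J[n]`, from `WeilInt`  (formal)

`H.hasRep_of_char` with `χ Q ω := eW n (Pt ω) (ι Q)`: `eW_zero_right`, `eW_add_right`, `eW_nondeg` + `eW_ne_zero`
(injectivity), `eW_semi` + `hbase` (equivariance).
-/

set_option autoImplicit false

noncomputable section

namespace Fermat.Agent.S19.M

open AlgebraicCurve Polynomial Fermat.Agent.S24.FF Fermat.Agent.S27 Fermat.Agent.S19.I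
  Fermat.Agent.S19.W Fermat.Agent.S19.R Fermat.Agent.GAL.KL Fermat.Agent.GAL.KLC

variable {F : Type} [Field F] [Algebra Qb F] [IsFF1 Qb F]

theorem hasRep_of_weilInt {ℓ : ℕ} [Fact ℓ.Prime] {A : ValuationSubring Qb} (hA : A.LiesOverPrime ℓ)
    {gal : GQ →* SemilinearAut Qb F}
    (hbase : ∀ (σ : GQ) (a : Qb), SemilinearAut.baseAut (gal σ) a = σ a) {n : ℕ} (hn : 0 < n)
    (hW : WeilInt A gal n) {Γ' : Type} [AddCommGroup Γ'] [Finite Γ'] (ι : Γ' →+ Pic0 Qb F)
    (hι : Function.Injective ι) (hιn : ∀ Q, n • ι Q = 0) (act' : GQ → Γ' → Γ')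
    (hact' : ∀ σ Q, ι (act' σ Q) = gal σ • ι Q) : HasRep A Γ' act' := by
  obtain ⟨Ω, _, act, Pt, hbij, hPt, hsurj, heq, hSG⟩ := hW
  refine H.hasRep_of_char A hA act hbij act' (fun Q ω => eW n (Pt ω) (ι Q)) ?_ ?_ ?_ ?_
    (fun Q => hSG _ (hιn Q))
  · funext ω
    simp only [map_zero, Pi.one_apply]
    exact eW_zero_right hn _
  · intro P Q
    funext ω
    simp only [map_add, Pi.mul_apply]
    exact eW_add_right hn (hPt ω) (hιn P) (hιn Q)
  · intro Q Q' h
    by_contra hne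
    have h0 : ι (Q - Q') ≠ 0 := by
      intro h0
      apply hne
      have := hι (h0.trans (map_zero ι).symm)
      exact sub_eq_zero.mp this
    obtain ⟨P, hP, hPne⟩ := eW_nondeg hn (hιn (Q - Q')) h0
    obtain ⟨ω, rfl⟩ := hsurj P hP
    apply hPne
    have h1 : eW n (Pt ω) (ι Q) = eW n (Pt ω) (ι Q') := congrFun h ω
    have h2 : eW n (Pt ω) (ι Q' + ι (Q - Q')) = eW n (Pt ω) (ι Q') * eW n (Pt ω) (ι (Q - Q')) :=
      eW_add_right hn (hPt ω) (hιn Q') (hιn (Q - Q'))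
    rw [← map_add, add_sub_cancel, h1] at h2
    exact (mul_eq_left₀ (eW_ne_zero n _ _)).mp h2.symm
  · intro σ Q ω
    show eW n (Pt (act σ ω)) (ι (act' σ Q)) = σ (eW n (Pt ω) (ι Q))
    rw [heq, hact', eW_semi hn, hbase]

end Fermat.Agent.S19.M
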