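import Fermat.Agent.S19.M.Concrete
import Fermat.Agent.S19.M.HasRep
import Fermat.Agent.S19.Chain

/-!
# S19 / M7 : the contract `AdmRepContract` of `S19/Chain.lean`
-/

set_option autoImplicit false

noncomputable section

namespace Fermat.Agent.S19.M

open AlgebraicCurve ModularCurve Fermat.Agent.S24.FF Fermat.Agent.S27 Fermat.Agent.S19.B
open Fermat.Agent.S32 (torAct RepContract)

/-- (REP) for `J₀(M)[ℓ^k]` at the admissible levels. -/
theorem admRepContract : AdmRepContract := by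
  intro M ℓ _ hM hℓ hℓM A hA k
  haveI : Fact ℓ.Prime := ⟨hℓ⟩
  have hn : 0 < ℓ ^ k := pow_pos hℓ.pos k
  haveI : Finite (Submodule.torsionBy ℤ (JZero M) ((ℓ : ℤ) ^ k)) :=
    L.finite_torsionBy M (ℓ ^ k) hn _ (by push_cast; rfl)
  refine hasRep_of_weilInt (F := GAL.FL Qb M) hA (gal := galM M) (fun σ a => rfl) hn
    (weilInt_adm M A hM hℓ hℓM hA hn)
    (Submodule.torsionBy ℤ (JZero M) ((ℓ : ℤ) ^ k)).subtype.toAddMonoidHom
    Subtype.val_injective (fun Q => ?_) (torAct M ((ℓ : ℤ) ^ k)) (fun σ Q => rfl)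
  have h := (Submodule.mem_torsionBy_iff _ _).1 Q.2
  rw [← natCast_zsmul]
  push_cast
  exact h

end Fermat.Agent.S19.M
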