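import Fermat.Agent.S19.M.Defs
import Fermat.Agent.GR.FormalES

/-!
# S19 / M2 : finitely many places are bad for the chart `s = 1/(x^(ℓ^r) - x + 1)`

`exists_pow_sub_mem_nonunits`: the residue field `k` of `A` is algebraic over `𝔽_ℓ` (`b ∈ A` is a root of a primitive
polynomial over `ℤ`; or look for an existing lemma: `GR`/`S28`/`GAL` have `charP_residueField`, and maybe algebraicity), so
`b̄` lies in a finite subfield with `ℓ^(r_b)` elements, `b̄^(ℓ^(r_b)) = b̄` (`FiniteField.pow_card`), and the same for all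
multiples of `r_b`; take `r = ∏ r_b`.
`exists_bad_chart`: `y` a pole of `x`: `s(y) = 0`.  `b = x(y) ∉ A`: `|m(b)| = |b|^(ℓ^r) > 1`, `|s(y)| < 1`.
`b ∈ A`: `m(b) ≡ 1`, `|s(y) - 1| < 1`.  (`S27.val_*` API, `val` of `aeval`: `val_sum`/`val_pow` or induction.)
-/

set_option autoImplicit false
set_option linter.unusedSectionVars false

noncomputable section

namespace Fermat.Agent.S19.M

open AlgebraicCurve Polynomial Fermat.Agent.S24.FF Fermat.Agent.S27 Fermat.Agent.S19.I
  Fermat.Agent.S19.W Fermat.Agent.S19.R Fermat.Agent.GAL.KL Fermat.Agent.GAL.KLC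

variable {F : Type} {Γ₀ : Type*} [Field F] [Algebra Qb F] [IsFF1 Qb F]
  [LinearOrderedCommGroupWithZero Γ₀]

/-- an element of the residue field of `A` is fixed by a power of Frobenius. -/
theorem bad_exists_frob {ℓ : ℕ} (hℓ : ℓ.Prime) {A : ValuationSubring Qb}
    (hA : A.LiesOverPrime ℓ) (β : A) :
    ∃ r : ℕ, 0 < r ∧ (IsLocalRing.residue A β) ^ (ℓ ^ r) = IsLocalRing.residue A β := by
  have : Fact ℓ.Prime := ⟨hℓ⟩
  have : CharP (IsLocalRing.ResidueField A) ℓ := Fermat.Agent.GR.charP_residueField hℓ hA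
  let _ : Algebra (ZMod ℓ) (IsLocalRing.ResidueField A) := ZMod.algebra _ ℓ
  set bb := IsLocalRing.residue A β with hbb
  -- algebraicity
  have halgZ : IsAlgebraic ℤ (β : Qb) :=
    (IsFractionRing.isAlgebraic_iff ℤ ℚ Qb).mpr ((AlgebraicClosure.isAlgebraic ℚ).isAlgebraic _)
  obtain ⟨p, hp0, hp⟩ := halgZ
  have hprim : p.primPart.IsPrimitive := p.isPrimitive_primPart
  have hpp : aeval (β : Qb) p.primPart = 0 := by
    have h1 := p.eq_C_content_mul_primPart
    have h2 : aeval (β : Qb) p = aeval (β : Qb) (C p.content) * aeval (β : Qb) p.primPart := by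
      conv_lhs => rw [h1]
      rw [map_mul]
    rw [hp] at h2
    rcases mul_eq_zero.1 h2.symm with h3 | h3
    · exfalso
      rw [aeval_C] at h3
      have : p.content = 0 := by
        have h4 : ((p.content : ℤ) : Qb) = 0 := by simpa using h3
        exact_mod_cast h4
      exact hp0 (content_eq_zero_iff.1 this)
    · exact h3
  set P := p.primPart with hP
  have hβ : aeval β P = 0 := by
    have h1 : ((aeval β P : A) : Qb) = aeval (β : Qb) P := by
      have := Polynomial.aeval_algHom_apply (A.subtype.toIntAlgHom) β P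
      exact this.symm
    exact Subtype.ext (by rw [h1, hpp]; rfl)
  have hbbP : aeval bb P = 0 := by
    have := Polynomial.aeval_algHom_apply ((IsLocalRing.residue A).toIntAlgHom) β P
    rw [hβ, map_zero] at this
    exact this
  set Pb : (ZMod ℓ)[X] := P.map (Int.castRingHom (ZMod ℓ)) with hPb
  have hPb0 : Pb ≠ 0 := by
    intro h
    have hdvd : C (ℓ : ℤ) ∣ P := by
      rw [C_dvd_iff_dvd_coeff]
      intro i
      have h1 : Pb.coeff i = 0 := by rw [h, coeff_zero]
      rw [hPb, coeff_map] at h1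
      exact (ZMod.intCast_zmod_eq_zero_iff_dvd _ _).1 h1
    have := hprim _ hdvd
    rw [Int.isUnit_iff] at this
    have h2 := hℓ.two_le
    omega
  have hPbb : aeval bb Pb = 0 := by
    have h1 : aeval bb Pb = aeval bb P := by
      rw [hPb, aeval_def, eval₂_map, aeval_def]
      congr 1
      exact RingHom.ext_int _ _
    rw [h1, hbbP]
  have hint : IsIntegral (ZMod ℓ) bb := isAlgebraic_iff_isIntegral.1 ⟨Pb, hPb0, hPbb⟩
  have : Module.Finite (ZMod ℓ) (Algebra.adjoin (ZMod ℓ) {bb}) :=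
    Module.Finite.iff_fg.2 hint.fg_adjoin_singleton
  have : Finite (Algebra.adjoin (ZMod ℓ) {bb}) := Module.finite_of_finite (ZMod ℓ)
  let b' : Algebra.adjoin (ZMod ℓ) {bb} := ⟨bb, Algebra.subset_adjoin (Set.mem_singleton _)⟩
  obtain ⟨m, n, hmn, heq⟩ := Finite.exists_ne_map_eq_of_infinite (fun n : ℕ => b' ^ (ℓ ^ n))
  have heq' : bb ^ (ℓ ^ m) = bb ^ (ℓ ^ n) := congrArg Subtype.val heq
  have key : ∀ m n : ℕ, m < n → bb ^ (ℓ ^ m) = bb ^ (ℓ ^ n) → ∃ r : ℕ, 0 < r ∧ bb ^ (ℓ ^ r) = bb := by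
    intro m n hlt h
    refine ⟨n - m, by omega, ?_⟩
    have hinj := (frobenius_inj (IsLocalRing.ResidueField A) ℓ).iterate m
    apply hinj
    rw [iterate_frobenius, iterate_frobenius, ← pow_mul, ← pow_add, Nat.sub_add_cancel hlt.le]
    exact h.symm
  rcases lt_or_gt_of_ne hmn with h | h
  · exact key m n h heq'
  · exact key n m h heq'.symm


theorem bad_frob_mul {k : Type*} [Field k] {ℓ : ℕ} {b : k} {r : ℕ} (h : b ^ (ℓ ^ r) = b) (m : ℕ) :
    b ^ (ℓ ^ (r * m)) = b := by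
  induction m with
  | zero => simp
  | succ m ih => rw [Nat.mul_succ, pow_add, pow_mul, ih, h]

/-- the residue field of `A` is algebraic over `𝔽_ℓ`. -/
theorem exists_pow_sub_mem_nonunits {ℓ : ℕ} (hℓ : ℓ.Prime) {A : ValuationSubring Qb}
    (hA : A.LiesOverPrime ℓ) (S : Finset Qb) (hS : ∀ b ∈ S, b ∈ A) :
    ∃ r : ℕ, 0 < r ∧ ∀ b ∈ S, b ^ (ℓ ^ r) - b ∈ A.nonunits := by
  classical
  induction S using Finset.induction_on with
  | empty => exact ⟨1, one_pos, fun b hb => absurd hb (Finset.notMem_empty b)⟩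
  | insert c S hc ih =>
    obtain ⟨r, hr, hrS⟩ := ih fun b hb => hS b (Finset.mem_insert_of_mem hb)
    obtain ⟨r', hr', hc'⟩ := bad_exists_frob hℓ hA ⟨c, hS c (Finset.mem_insert_self c S)⟩
    have conv : ∀ (b : Qb) (hb : b ∈ A) (t : ℕ),
        b ^ (ℓ ^ t) - b ∈ A.nonunits ↔
          (IsLocalRing.residue A ⟨b, hb⟩) ^ (ℓ ^ t) = IsLocalRing.residue A ⟨b, hb⟩ := by
      intro b hb t
      rw [ValuationSubring.mem_nonunits_iff_exists_mem_maximalIdeal, ← map_pow, ← sub_eq_zero,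
        ← map_sub, IsLocalRing.residue_eq_zero_iff]
      constructor
      · rintro ⟨h1, h2⟩
        exact h2
      · intro h
        exact ⟨_, h⟩
    refine ⟨r * r', Nat.mul_pos hr hr', fun b hb => ?_⟩
    rcases Finset.mem_insert.1 hb with rfl | hb'
    · rw [conv b (hS b hb), Nat.mul_comm]
      exact bad_frob_mul hc' r
    · rw [conv b (hS b hb)]
      exact bad_frob_mul ((conv b (hS b hb) r).1 (hrS b hb')) r'

theorem bad_one_lt_pow (ℓ r : ℕ) (hℓ : 1 < ℓ) (hr : 0 < r) : 1 < ℓ ^ r :=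
  Nat.one_lt_pow hr.ne' hℓ

theorem bad_mP_eq (ℓ r : ℕ) : mP ℓ r = X ^ (ℓ ^ r) + (-X + 1) := by
  unfold mP
  ring

theorem bad_degree_lt (ℓ r : ℕ) (hℓ : 1 < ℓ) (hr : 0 < r) :
    (-X + 1 : ℤ[X]).degree < ((ℓ ^ r : ℕ) : WithBot ℕ) := by
  have h1 : (-X + 1 : ℤ[X]).degree ≤ 1 := by
    refine le_trans (degree_add_le _ _) (max_le ?_ ?_)
    · rw [degree_neg, degree_X]
    · rw [degree_one]; exact zero_le_one
  refine lt_of_le_of_lt h1 ?_
  exact_mod_cast bad_one_lt_pow ℓ r hℓ hr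

theorem mP_monic (ℓ r : ℕ) (hℓ : 1 < ℓ) (hr : 0 < r) : (mP ℓ r).Monic := by
  rw [bad_mP_eq]
  exact monic_X_pow_add (bad_degree_lt ℓ r hℓ hr)

theorem mP_natDegree (ℓ r : ℕ) (hℓ : 1 < ℓ) (hr : 0 < r) : (mP ℓ r).natDegree = ℓ ^ r := by
  rw [bad_mP_eq]
  have h1 : (X ^ (ℓ ^ r) + (-X + 1) : ℤ[X]).degree = ((ℓ ^ r : ℕ) : WithBot ℕ) := by
    rw [degree_add_eq_left_of_degree_lt, degree_X_pow]
    rw [degree_X_pow]
    exact bad_degree_lt ℓ r hℓ hr
  exact natDegree_eq_of_degree_eq_some h1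

theorem bad_aeval_mP (x : F) (ℓ r : ℕ) :
    aeval x ((mP ℓ r).map (Int.castRingHom Qb)) = x ^ (ℓ ^ r) - x + 1 := by
  unfold mP
  simp

theorem bad_lt_one_of_nonunits {A : ValuationSubring Qb} {v : Valuation F Γ₀}
    (hvA : ∀ a : Qb, v (algebraMap Qb F a) ≤ 1 ↔ a ∈ A) {a : Qb} (ha : a ∈ A.nonunits) :
    vK v a < 1 := by
  have h1 : A.valuation a < 1 := ha
  have h2 : a ∈ A := (A.valuation_le_one_iff a).1 h1.le
  refine lt_of_le_of_ne ((hvA a).2 h2) fun h => ?_
  have h3 : vK v a⁻¹ ≤ 1 := by rw [map_inv₀, h, inv_one]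
  have h4 : a⁻¹ ∈ A := (hvA _).1 h3
  have h5 := (A.valuation_le_one_iff _).2 h4
  have ha0 : a ≠ 0 := by
    rintro rfl
    rw [map_zero] at h
    exact zero_ne_one h
  have h6 : A.valuation a ≠ 0 := (Valuation.ne_zero_iff _).2 ha0
  rw [map_inv₀, inv_le_one₀ (zero_lt_iff.2 h6)] at h5
  exact absurd h1 (not_lt.2 h5)

/-- (M2) finitely many places are bad for `s = 1/(x^(ℓ^r) - x + 1)`, `r` suitable. -/
theorem exists_bad_chart {ℓ : ℕ} (hℓ : ℓ.Prime) {A : ValuationSubring Qb} (hA : A.LiesOverPrime ℓ)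
    {v : Valuation F Γ₀} (hvA : ∀ a : Qb, v (algebraMap Qb F a) ≤ 1 ↔ a ∈ A) (x : F)
    (S : Finset (Place Qb F)) :
    ∃ r : ℕ, 0 < r ∧ ∀ y ∈ S, Bad v (sOf x (mP ℓ r)) y := by
  classical
  obtain ⟨r, hr, hrS⟩ := exists_pow_sub_mem_nonunits hℓ hA
    ((S.image fun y => val y x).filter fun b => b ∈ A) (fun b hb => (Finset.mem_filter.1 hb).2)
  refine ⟨r, hr, fun y hy => ?_⟩
  have hN : 1 < ℓ ^ r := bad_one_lt_pow ℓ r hℓ.one_lt hr
  set N := ℓ ^ r with hNdef
  unfold sOf
  rw [bad_aeval_mP]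
  set μ : F := x ^ N - x + 1 with hμ
  rcases lt_or_ge (y.ord x) 0 with hx | hx
  · -- pole of `x`
    have hx0 : x ≠ 0 := ne_zero_of_ord_ne_zero y (by omega)
    have h1 : y.ord (-(x - algebraMap Qb F 1)) = y.ord x := by
      rw [ord_neg, ord_sub_algebraMap_of_pole y hx]
    have h10 : -(x - algebraMap Qb F 1) ≠ 0 := ne_zero_of_ord_ne_zero y (by rw [h1]; omega)
    have hμ' : μ = x ^ N + -(x - algebraMap Qb F 1) := by rw [hμ, map_one]; ring
    have h2 : y.ord μ = N * y.ord x := by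
      rw [hμ', ord_add_eq_of_lt y (pow_ne_zero _ hx0) h10 (by
        rw [h1, ord_pow]
        have : (2 : ℤ) ≤ N := by exact_mod_cast hN
        nlinarith), ord_pow]
    have h3 : 0 < y.ord μ⁻¹ := by
      rw [y.ord_inv, h2]
      have : (2 : ℤ) ≤ N := by exact_mod_cast hN
      nlinarith
    refine ⟨h3.le, Or.inl ?_⟩
    rw [val_eq_zero_of_ord_pos y h3, map_zero]
    exact zero_lt_one
  · set b := val y x with hb
    have hμord : 0 ≤ y.ord μ :=
      ord_add_nonneg y (ord_sub_nonneg y (ord_pow_nonneg y hx N) hx) (by rw [y.ord_one])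
    have hvalμ : val y μ = b ^ N - b + 1 := by
      rw [hμ, val_add y (ord_sub_nonneg y (ord_pow_nonneg y hx N) hx) (by rw [y.ord_one]),
        val_sub y (ord_pow_nonneg y hx N) hx, val_pow y hx, val_one]
    have fin : vK v (val y μ) ≠ 0 → (vK v (val y μ)⁻¹ < 1 ∨ vK v ((val y μ)⁻¹ - 1) < 1) →
        Bad v μ⁻¹ y := by
      intro h0 h
      have h0' : val y μ ≠ 0 := (Valuation.ne_zero_iff _).1 h0
      have hμ0 : μ ≠ 0 := by
        intro h1
        rw [h1, val_zero] at h0'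
        exact h0' rfl
      have hord : y.ord μ = 0 := (val_ne_zero_iff y hμ0 hμord).1 h0'
      refine ⟨by rw [y.ord_inv, hord, neg_zero], ?_⟩
      rw [val_inv y hord]
      exact h
    by_cases hbA : b ∈ A
    · have h1 : vK v (b ^ N - b) < 1 := bad_lt_one_of_nonunits hvA (hrS b (Finset.mem_filter.2
        ⟨Finset.mem_image_of_mem _ hy, hbA⟩))
      have h2 : vK v (val y μ) = 1 := by
        rw [hvalμ, Valuation.map_add_eq_of_lt_right _ (by rw [map_one]; exact h1), map_one]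
      have h0' : val y μ ≠ 0 := (Valuation.ne_zero_iff _).1 (by rw [h2]; exact one_ne_zero)
      refine fin (by rw [h2]; exact one_ne_zero) (Or.inr ?_)
      have h3 : (val y μ)⁻¹ - 1 = -(b ^ N - b) * (val y μ)⁻¹ := by
        rw [hvalμ] at h0' ⊢
        field_simp
        ring
      rw [h3, map_mul, Valuation.map_neg, map_inv₀, h2, inv_one, mul_one]
      exact h1
    · have h1 : 1 < vK v b := not_le.1 fun h => hbA ((hvA b).1 h)
      have h2 : vK v (-b + 1) < vK v (b ^ N) := by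
        refine lt_of_le_of_lt (Valuation.map_add _ _ _) (max_lt ?_ ?_)
        · rw [Valuation.map_neg, map_pow]
          calc vK v b = vK v b ^ 1 := (pow_one _).symm
            _ < vK v b ^ N := pow_lt_pow_right₀ h1 hN
        · rw [map_one, map_pow]
          exact one_lt_pow₀ h1 (by omega)
      have h3 : vK v (val y μ) = vK v b ^ N := by
        have : b ^ N - b + 1 = b ^ N + (-b + 1) := by ring
        rw [hvalμ, this, Valuation.map_add_eq_of_lt_left _ h2, map_pow]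
      have h4 : 1 < vK v (val y μ) := by
        rw [h3]
        exact one_lt_pow₀ h1 (by omega)
      refine fin (ne_of_gt (lt_trans zero_lt_one h4)) (Or.inl ?_)
      rw [map_inv₀]
      exact inv_lt_one_of_one_lt₀ h4

end Fermat.Agent.S19.M
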