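import Fermat.Agent.S19.M.Defs
import Fermat.Agent.S27.B.Descend
import Fermat.Agent.S27.H.Geom

/-!
# S19 / M1c : every class of `J[n]` is the class of a canonical tuple

`P = cls D`.  `m` minimal (`Nat.find`) with `1 ≤ ell (D + m ∞)`; `m ≤ g` by Riemann (`S27.ell_sub_hh1`); `ell (D + m ∞) = 1`
(`S27.desc_ell_le_ell_sub_single_add_one`, for `m = 0`: `GAL.FF.ell_le_degree_add_one'`).  `0 ≠ f ∈ L(D + m ∞)`,
`X := D + m ∞ + div f ≥ 0`, `deg X = m`, `L(X) = f⁻¹ L(D + m ∞) = K` (as in the proof of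
`S27.IsConstExt.torsion_descends`, `hLE`).  Write `X = sumPts y`, `y : Fin m → Place` (induction on the degree), and
`x := (y_1..y_m, ∞..∞)` (`Fin.append`/`Fin.addCases` + cast, or `fun i => if h : i < m then y ⟨i,h⟩ else oo`), `j := g₀ - m`.
-/

set_option autoImplicit false

noncomputable section

namespace Fermat.Agent.S19.M

open AlgebraicCurve Polynomial Fermat.Agent.S24.FF Fermat.Agent.S27 Fermat.Agent.S19.I
  Fermat.Agent.S19.W Fermat.Agent.S19.R Fermat.Agent.GAL.KL Fermat.Agent.GAL.KLC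

variable {F : Type} [Field F] [Algebra Qb F] [IsFF1 Qb F]

/-- (M1c) covering. -/
theorem exists_isCan {n : ℕ} (oo : Place Qb F) {g₀ : ℕ} (hg : genusFF Qb F ≤ g₀) {P : Pic0 Qb F}
    (hP : n • P = 0) : ∃ x : Fin g₀ → Place Qb F, IsCan n oo x ∧ cls (tupDiv x oo) = P := by
  classical
  obtain ⟨D₀, hD₀, rfl⟩ := cls_surjective P
  -- the minimal `r`
  have hgen : ell (D₀ + Finsupp.single oo ((genusFF Qb F : ℕ) : ℤ)) ≠ 0 := by
    have h1 := ell_sub_hh1 (D₀ + Finsupp.single oo ((genusFF Qb F : ℕ) : ℤ))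
    rw [map_add, hD₀, Divisor.degree_single, deg_eq_one] at h1
    have h2 : (0 : ℤ) ≤ hh1 (D₀ + Finsupp.single oo ((genusFF Qb F : ℕ) : ℤ)) :=
      Int.natCast_nonneg _
    intro h0
    rw [h0] at h1
    push_cast at h1
    omega
  have hex : ∃ r : ℕ, ell (D₀ + Finsupp.single oo (r : ℤ)) ≠ 0 := ⟨genusFF Qb F, hgen⟩
  set r := Nat.find hex with hr
  have hrg : r ≤ g₀ := (Nat.find_min' hex hgen).trans hg
  have hr1 : ell (D₀ + Finsupp.single oo (r : ℤ)) ≠ 0 := Nat.find_spec hex
  have hr0 : ell (D₀ + Finsupp.single oo (r : ℤ) - Finsupp.single oo 1) = 0 := by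
    rcases Nat.eq_zero_or_pos r with h0 | h0
    · apply ell_eq_zero_of_degree_neg
      rw [map_sub, map_add, hD₀, Divisor.degree_single, Divisor.degree_single, deg_eq_one, h0]
      norm_num
    · have h1 : ¬ ell (D₀ + Finsupp.single oo ((r - 1 : ℕ) : ℤ)) ≠ 0 :=
        Nat.find_min hex (by omega)
      rw [not_not] at h1
      rw [add_sub_assoc, ← Finsupp.single_sub]
      have h2 : ((r : ℤ) - 1) = ((r - 1 : ℕ) : ℤ) := by
        rw [Nat.cast_sub h0]; norm_num
      rw [h2]; exact h1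
  have hell : ell (D₀ + Finsupp.single oo (r : ℤ)) = 1 := by
    have := desc_ell_le_ell_sub_single_add_one (D₀ + Finsupp.single oo (r : ℤ)) oo
    omega
  set D₁ : Divisor Qb F := D₀ + Finsupp.single oo (r : ℤ) with hD₁
  have hne : riemannRochSpace D₁ ≠ ⊥ := by
    intro h'
    unfold ell at hell
    rw [h', finrank_bot] at hell
    omega
  obtain ⟨f, hf, hf0⟩ := Submodule.exists_mem_ne_zero_of_ne_bot hne
  set E : Divisor Qb F := D₁ + GAL.FF.divOf Qb f with hE
  have hEnonneg : ∀ v, 0 ≤ E v := by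
    intro v
    exact (GAL.FF.mem_L_iff_divOf hf0).1 hf v
  -- `L(E) = K`
  have hLE : OnlyConst E := by
    intro u hu
    rcases eq_or_ne u 0 with rfl | hu0
    · exact ⟨0, map_zero _⟩
    have huf : u * f ∈ riemannRochSpace D₁ := by
      rw [mem_riemannRochSpace_iff] at hu ⊢
      intro v
      right
      have h1 := (hu v).resolve_left hu0
      rw [hE, Finsupp.add_apply, GAL.FF.divOf_apply] at h1
      rw [v.ord_mul hu0 hf0]
      omega
    obtain ⟨a, ha⟩ := (finrank_eq_one_iff_of_nonzero' (⟨f, hf⟩ : riemannRochSpace D₁)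
      (by simpa [Subtype.ext_iff] using hf0)).1 hell ⟨u * f, huf⟩
    have ha' : a • f = u * f := congrArg Subtype.val ha
    rw [Algebra.smul_def] at ha'
    exact ⟨a, mul_right_cancel₀ hf0 ha'⟩
  have hEdeg : Divisor.degree E = r := by
    rw [hE, hD₁, map_add, map_add, GAL.FF.degree_divOf, hD₀, Divisor.degree_single, deg_eq_one]
    ring
  -- the tuple
  obtain ⟨x, hx⟩ := exists_sumPts_eq g₀ (E + Finsupp.single oo ((g₀ - r : ℕ) : ℤ))
    (fun v => by
      rw [Finsupp.add_apply]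
      have h1 : (0 : ℤ) ≤ Finsupp.single oo ((g₀ - r : ℕ) : ℤ) v := by
        rw [Finsupp.single_apply]
        split_ifs
        · exact Int.natCast_nonneg _
        · exact le_rfl
      have := hEnonneg v
      omega)
    (by
      rw [map_add, hEdeg, Divisor.degree_single, deg_eq_one, Nat.cast_sub hrg]
      ring)
  have hsub : sumPts x - Finsupp.single oo ((g₀ - r : ℕ) : ℤ) = E := by
    rw [← hx, add_sub_cancel_right]
  have htup : tupDiv x oo = E - Finsupp.single oo (r : ℤ) := by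
    unfold tupDiv
    rw [← hx, add_sub_assoc, ← Finsupp.single_sub, Nat.cast_sub hrg, sub_eq_add_neg E,
      ← Finsupp.single_neg]
    congr 2
    ring
  have hdeg : Divisor.degree (E - Finsupp.single oo (r : ℤ)) = 0 := by
    rw [map_sub, hEdeg, Divisor.degree_single, deg_eq_one]
    ring
  have hcls : cls (tupDiv x oo) = cls D₀ := by
    rw [htup, cls_eq_iff hdeg hD₀]
    refine ⟨f, hf0, fun v => ?_⟩
    rw [hE, hD₁]
    simp only [Finsupp.sub_apply, Finsupp.add_apply, GAL.FF.divOf_apply]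
    ring
  refine ⟨x, ⟨by rw [hcls]; exact hP, g₀ - r, Nat.sub_le _ _, ?_, ?_⟩, hcls⟩
  · rw [hsub]
    intro v
    exact hEnonneg v
  · rw [hsub]
    exact hLE

end Fermat.Agent.S19.M
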