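import Fermat.Agent.S19.M.Defs
import Fermat.Agent.GAL.FF.ZeroDeg
import Fermat.Agent.GAL.FF.Places

/-!
# S19 / M3 : the zeros of `s² - s - 1` are good points

`c = s(a)` satisfies `c (c - 1) = 1`, `c ∈ A` (else `1 = c⁻¹ + c⁻²` is a nonunit), so `|c| = |c - 1| = 1`.
Existence/finiteness: `GAL.FF.exists_place_ord_pos`, `GAL.FF.finite_zeros'`.
-/

set_option autoImplicit false

noncomputable section

namespace Fermat.Agent.S19.M

open AlgebraicCurve Polynomial Fermat.Agent.S24.FF Fermat.Agent.S27 Fermat.Agent.S19.I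
  Fermat.Agent.S19.W Fermat.Agent.S19.R Fermat.Agent.GAL.KL Fermat.Agent.GAL.KLC

variable {F : Type} {Γ₀ : Type*} [Field F] [Algebra Qb F] [IsFF1 Qb F]
  [LinearOrderedCommGroupWithZero Γ₀]

/-- (M3) the zeros of `s² - s - 1` are good points. -/
theorem good_of_ord_pos {A : ValuationSubring Qb} {v : Valuation F Γ₀}
    (hvA : ∀ a : Qb, v (algebraMap Qb F a) ≤ 1 ↔ a ∈ A) (s : F) {a : Place Qb F}
    (ha : 0 < a.ord (s ^ 2 - s - 1)) : Good v s a := by
  have hs : 0 ≤ a.ord s := by
    by_contra hneg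
    push Not at hneg
    have hs0 : s ≠ 0 := by
      rintro rfl
      rw [Place.ord_zero] at hneg
      exact lt_irrefl _ hneg
    have hinv : 0 < a.ord s⁻¹ := by rw [Place.ord_inv]; omega
    have e : (1 : F) = s⁻¹ + (s⁻¹ * s⁻¹ + (s ^ 2 - s - 1) * (s⁻¹ * s⁻¹)) := by
      field_simp
      ring
    have h1 := vanish_add a (Or.inr hinv) (vanish_add a (vanish_mul a (Or.inr hinv) hinv.le)
      (vanish_mul a (Or.inr ha) (ord_mul_nonneg a hinv.le hinv.le)))
    rw [← e] at h1
    rcases h1 with h1 | h1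
    · exact one_ne_zero h1
    · rw [Place.ord_one] at h1
      exact lt_irrefl _ h1
  have hc : val a s ^ 2 - val a s - 1 = 0 := by
    have h0 := val_eq_zero_of_ord_pos a ha
    rwa [val_sub a (ord_sub_nonneg a (ord_pow_nonneg a hs 2) hs) (by rw [Place.ord_one]),
      val_sub a (ord_pow_nonneg a hs 2) hs, val_pow a hs, val_one] at h0
  set c := val a s with hcdef
  have hmul : c * (c - 1) = 1 := by linear_combination hc
  have hc0 : c ≠ 0 := by
    intro h0
    rw [h0, zero_mul] at hmul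
    exact zero_ne_one hmul
  have hcA : c ∈ A := by
    rcases A.mem_or_inv_mem c with h | h
    · exact h
    · have : c = 1 + c⁻¹ := by
        field_simp
        linear_combination hc
      rw [this]
      exact A.add_mem _ _ A.one_mem h
  have h1 : vK v c ≤ 1 := (hvA c).2 hcA
  have h2 : vK v (c - 1) ≤ 1 := (hvA (c - 1)).2 (A.sub_mem hcA A.one_mem)
  have h3 : vK v c * vK v (c - 1) = 1 := by rw [← map_mul, hmul, map_one]
  refine ⟨hs, le_antisymm h1 ?_, le_antisymm h2 ?_⟩
  · calc (1 : Γ₀) = vK v c * vK v (c - 1) := h3.symm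
      _ ≤ vK v c := mul_le_of_le_one_right' h2
  · calc (1 : Γ₀) = vK v c * vK v (c - 1) := h3.symm
      _ ≤ vK v (c - 1) := mul_le_of_le_one_left' h1

omit [IsFF1 Qb F] in
theorem good_transcendental_quad {s : F} (hs : Transcendental Qb s) :
    Transcendental Qb (s ^ 2 - s - 1) := by
  have hd : (X ^ 2 - X - 1 : Qb[X]).natDegree = 2 := by compute_degree!
  have hm : (X ^ 2 - X - 1 : Qb[X]).Monic := by monicity!
  have h := hs.aeval (X ^ 2 - X - 1 : Qb[X]) (by rw [hd]; norm_num)
    (by rw [hm.leadingCoeff]; exact one_mem _)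
  simpa using h

theorem exists_ord_pos_quad {s : F} (hs : Transcendental Qb s) :
    ∃ a : Place Qb F, 0 < a.ord (s ^ 2 - s - 1) :=
  Fermat.Agent.GAL.FF.exists_place_ord_pos (good_transcendental_quad hs)

theorem finite_ord_pos_quad {s : F} (hs : Transcendental Qb s) :
    {a : Place Qb F | 0 < a.ord (s ^ 2 - s - 1)}.Finite :=
  Fermat.Agent.GAL.FF.finite_zeros' (good_transcendental_quad hs)

/-- a bad place is not good. -/
theorem Bad.not_good {v : Valuation F Γ₀} {s : F} {y : Place Qb F} (h : Bad v s y) : ¬ Good v s y := by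
  rintro ⟨-, h1, h2⟩
  rcases h.2 with h | h
  · rw [h1] at h
    exact lt_irrefl _ h
  · rw [h2] at h
    exact lt_irrefl _ h

end Fermat.Agent.S19.M
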