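import Fermat.Agent.S19.M.Can
import Fermat.Agent.S19.M.Cover
import Fermat.Agent.S19.M.Bad
import Fermat.Agent.S19.M.Good
import Fermat.Agent.S19.I.Export
import Fermat.Agent.S19.R.Export
import Fermat.Agent.S19.W.Main
import Fermat.Agent.S27.B.Lefschetz
import Fermat.Agent.S27.H.Main

/-!
# S19 / M4 : the abstract assembly `WeilInt A gal n`

ORDER OF CHOICES.  `g₀ := genusFF`; `T := {x | IsCan n oo x}` finite (`finite_isCan`; torsion finite by
`S27.lef_finite_torsion (fun Fc _ _ _ n hn => S27.card_torsion_complex Fc n hn)`); `S := {oo} ∪ ⋃_{x ∈ T} range x`;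
`r` from `exists_bad_chart`; `m := mP ℓ r`, `s := sOf x m`; `Chart` for `s` by `R.chart_inv_aeval`; `gal σ • s = s`;
`Ω := {ω : (Fin g₀ → Place) × Place // IsCan n oo ω.1 ∧ 0 < ω.2.ord (s^2 - s - 1)}`, `act σ ω := gal σ • ·`,
`Pt ω := cls (tupDiv ω.1.1 oo)`.  Bijectivity: inverse `act σ⁻¹`.  Covering: `exists_isCan`, `exists_ord_pos_quad`.
`SG`: `Q = cls E₀`; `R.exists_good_repr` (with `c` a root of `X² - X - 1`: `c (c-1) = 1`) gives `E = E₀ + div f` in the good
locus, `n E = div w`; `u ω` with `div = n tupDiv`; `DisjD` by `Bad.not_good`; `W.eW_eq`; `I.integrality`.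
-/

set_option autoImplicit false

noncomputable section

namespace Fermat.Agent.S19.M

open AlgebraicCurve Polynomial Fermat.Agent.S24.FF Fermat.Agent.S27 Fermat.Agent.S19.I
  Fermat.Agent.S19.W Fermat.Agent.S19.R Fermat.Agent.GAL.KL Fermat.Agent.GAL.KLC

variable {F : Type} {k Γ₀ : Type*} [Field F] [Algebra Qb F] [IsFF1 Qb F] [Field k]
  [LinearOrderedCommGroupWithZero Γ₀]

omit [IsFF1 Qb F] in
/-- an `n`-torsion class has a representing function. -/
theorem assembly_exists_fun {n : ℕ} {D : Divisor Qb F} (hD : Divisor.degree D = 0)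
    (h : n • cls D = 0) : ∃ u : F, u ≠ 0 ∧ ∀ y : Place Qb F, y.ord u = n * D y := by
  rw [← cls_nsmul hD, cls_eq_zero_iff (by rw [map_nsmul, hD, smul_zero])] at h
  obtain ⟨u, hu, h⟩ := h
  exact ⟨u, hu, fun y => by rw [← h y]; simp⟩

omit [IsFF1 Qb F] in
/-- the chart `s = 1/m(x)` is rational. -/
theorem assembly_smul_sOf (g : SemilinearAut Qb F) {x : F} (hx : g • x = x) (m : ℤ[X]) :
    g • sOf x m = sOf x m := by
  have h1 : aeval x (m.map (Int.castRingHom Qb)) = aeval x m :=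
    aeval_map_algebraMap Qb x m
  have h2 : g • aeval x m = aeval x m := by
    have := aeval_algHom_apply ((SemilinearAut.toRingAut g : F →+* F).toIntAlgHom) x m
    have h3 : ((SemilinearAut.toRingAut g : F →+* F).toIntAlgHom) x = x := hx
    rw [h3] at this
    exact this.symm
  unfold sOf
  rw [h1, smul_inv'', h2]

/-- a root of `X² - X - 1` and its conjugate are units for every valuation. -/
theorem assembly_golden {K : Type*} [Field K] (w : Valuation K Γ₀) {c : K} (hc : c * (c - 1) = 1) :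
    w c = 1 ∧ w (c - 1) = 1 := by
  have h : w c * w (c - 1) = 1 := by rw [← map_mul, hc, map_one]
  rcases lt_trichotomy (w c) 1 with h1 | h1 | h1
  · have h2 : w (c - 1) = w 1 := Valuation.map_sub_eq_of_lt_right w (by rwa [map_one])
    rw [h2, map_one, mul_one] at h
    exact absurd h h1.ne
  · refine ⟨h1, ?_⟩
    rwa [h1, one_mul] at h
  · have h2 : w (c - 1) = w c := Valuation.map_sub_eq_of_lt_left w (by rwa [map_one])
    rw [h2] at h
    have h3 : 1 < w c * w c := one_lt_mul'' h1 h1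
    exact absurd h h3.ne'

theorem assembly_exists_golden : ∃ c : Qb, c * (c - 1) = 1 := by
  obtain ⟨z, hz⟩ := IsAlgClosed.exists_pow_nat_eq (5 : Qb) (n := 2) (by norm_num)
  refine ⟨(1 + z) / 2, ?_⟩
  field_simp
  linear_combination hz

omit [IsFF1 Qb F] in
theorem assembly_tupDiv_ne {g₀ : ℕ} {x : Fin g₀ → Place Qb F} {oo y : Place Qb F}
    (h : tupDiv x oo y ≠ 0) : y = oo ∨ ∃ j, y = x j := by
  classical
  by_contra hcon
  push Not at hcon
  apply h
  unfold tupDiv
  rw [Finsupp.sub_apply, sumPts_apply_of_notMem x (fun j => (hcon.2 j).symm),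
    Finsupp.single_apply, if_neg (fun e => hcon.1 e.symm), sub_zero]

theorem weilInt_of_setting {ℓ : ℕ} (hℓ : ℓ.Prime) {A : ValuationSubring Qb} (hA : A.LiesOverPrime ℓ)
    {v : Valuation F Γ₀} {gal : GQ →* SemilinearAut Qb F} (hS : Setting A v gal)
    {ρ : v.integer →+* LaurentSeries k} (hρ : IsRed Qb v ρ) (x : v.integer)
    (hch : Chart Qb v (x : F)) (hLift : LiftLL hρ x) (hxr : ∀ σ : GQ, gal σ • (x : F) = x)
    (hRB : ∀ m : ℤ[X], m.Monic → 0 < m.natDegree → RB A v gal (sOf (x : F) m))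
    (oo : Place Qb F) (hoo : ∀ σ : GQ, gal σ • oo = oo) {n : ℕ} (hn : 0 < n) :
    WeilInt A gal n := by
  classical
  set g₀ := genusFF Qb F with hg₀
  have hfin : Finite (Pic0.torsion Qb F n) :=
    lef_finite_torsion (fun Fc _ _ _ n hn => card_torsion_complex Fc n hn) Qb F n hn
  have hT : {x : Fin g₀ → Place Qb F | IsCan n oo x}.Finite := finite_isCan hfin oo g₀
  obtain ⟨r, hr, hbad⟩ := exists_bad_chart hℓ hA hS.vA (x : F)
    (insert oo (hT.toFinset.biUnion fun x => Finset.univ.image x))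
  have hmon : (mP ℓ r).Monic := mP_monic ℓ r hℓ.one_lt hr
  have hdeg : 0 < (mP ℓ r).natDegree := by
    rw [mP_natDegree ℓ r hℓ.one_lt hr]; exact pow_pos hℓ.pos _
  set m := mP ℓ r with hm
  set mK : Qb[X] := m.map (Int.castRingHom Qb) with hmK
  have hmonK : mK.Monic := hmon.map _
  have hdegK : 0 < mK.natDegree := by
    rw [hmK, hmon.natDegree_map]; exact hdeg
  have hcoeK : ∀ i, vK v (mK.coeff i) ≤ 1 := by
    intro i
    rw [hmK, coeff_map, vK_apply, hS.vA]
    exact intCast_mem A _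
  set s : F := sOf (x : F) m with hs
  have hsC : Chart Qb v s := chart_inv_aeval hch mK hdegK hcoeK (by
    rw [hmonK.leadingCoeff, map_one])
  have hsr : ∀ σ : GQ, gal σ • s = s := fun σ => assembly_smul_sOf (gal σ) (hxr σ) m
  have hstr : Transcendental Qb s := by
    rw [transcendental_iff]
    exact hsC.gauss.inj
  have hqr : ∀ σ : GQ, gal σ • (s ^ 2 - s - 1) = s ^ 2 - s - 1 := by
    intro σ
    rw [smul_sub, smul_sub, smul_pow', smul_one, hsr σ]
  have hqr' : ∀ (σ : GQ) (a : Place Qb F), 0 < a.ord (s ^ 2 - s - 1) →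
      0 < (gal σ • a).ord (s ^ 2 - s - 1) := by
    intro σ a ha
    rw [← hqr σ, SemilinearAut.ord_smul]
    exact ha
  have hQf := finite_ord_pos_quad hstr
  have hΩf : Finite ↥({x : Fin g₀ → Place Qb F | IsCan n oo x} ×ˢ
      {a : Place Qb F | 0 < a.ord (s ^ 2 - s - 1)}) := (hT.prod hQf).to_subtype
  let act : GQ → ↥({x : Fin g₀ → Place Qb F | IsCan n oo x} ×ˢ
      {a : Place Qb F | 0 < a.ord (s ^ 2 - s - 1)}) → ↥({x : Fin g₀ → Place Qb F | IsCan n oo x} ×ˢ
      {a : Place Qb F | 0 < a.ord (s ^ 2 - s - 1)}) := fun σ ω =>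
    ⟨(fun j => gal σ • ω.1.1 j, gal σ • ω.1.2),
      ⟨IsCan.semi ω.2.1 (gal σ) (hoo σ), hqr' σ _ ω.2.2⟩⟩
  refine ⟨_, hΩf, act, fun ω => cls (tupDiv ω.1.1 oo), ?_, fun ω => ω.2.1.1, ?_, ?_, ?_⟩
  · intro σ
    rw [Function.bijective_iff_has_inverse]
    refine ⟨act σ⁻¹, fun ω => ?_, fun ω => ?_⟩
    · refine Subtype.ext (Prod.ext (funext fun j => ?_) ?_)
      · show gal σ⁻¹ • gal σ • ω.1.1 j = ω.1.1 j
        rw [map_inv, inv_smul_smul]
      · show gal σ⁻¹ • gal σ • ω.1.2 = ω.1.2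
        rw [map_inv, inv_smul_smul]
    · refine Subtype.ext (Prod.ext (funext fun j => ?_) ?_)
      · show gal σ • gal σ⁻¹ • ω.1.1 j = ω.1.1 j
        rw [map_inv, smul_inv_smul]
      · show gal σ • gal σ⁻¹ • ω.1.2 = ω.1.2
        rw [map_inv, smul_inv_smul]
  · intro P hP
    obtain ⟨y, hy, hyP⟩ := exists_isCan oo (le_refl g₀) hP
    obtain ⟨a, ha⟩ := exists_ord_pos_quad hstr
    exact ⟨⟨(y, a), ⟨hy, ha⟩⟩, hyP⟩
  · intro σ ω
    show cls (tupDiv (fun j => gal σ • ω.1.1 j) oo) = gal σ • cls (tupDiv ω.1.1 oo)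
    rw [tupDiv_semi (gal σ) (hoo σ), cls_semi]
  · intro Q hQ
    obtain ⟨E₀, hE₀, rfl⟩ := cls_surjective Q
    obtain ⟨c, hc⟩ := assembly_exists_golden
    obtain ⟨hc1, hc2⟩ := assembly_golden (vK (K := Qb) v) hc
    obtain ⟨f, hf, hgood⟩ := exists_good_repr hρ x hch hLift mK hmonK hdegK hcoeK c hc1 hc2 E₀
    set E := E₀ + Fermat.Agent.GAL.FF.divOf Qb f with hE
    have hEdeg : Divisor.degree E = 0 := by
      rw [hE, map_add, hE₀, Fermat.Agent.GAL.FF.degree_divOf, add_zero]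
    have hEcls : cls E = cls E₀ := by
      rw [cls_eq_iff hEdeg hE₀]
      exact ⟨f, hf, fun y => by rw [hE]; simp⟩
    obtain ⟨w, hw, hwdiv⟩ := assembly_exists_fun hEdeg (by rw [hEcls]; exact hQ)
    have hu := fun ω : ↥({x : Fin g₀ → Place Qb F | IsCan n oo x} ×ˢ
      {a : Place Qb F | 0 < a.ord (s ^ 2 - s - 1)}) =>
        assembly_exists_fun (degree_tupDiv ω.1.1 oo) ω.2.1.1
    choose u hu0 hudiv using hu
    have hooB : Bad v s oo := hbad oo (Finset.mem_insert_self _ _)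
    have hxB : ∀ (ω : ↥({x : Fin g₀ → Place Qb F | IsCan n oo x} ×ˢ
      {a : Place Qb F | 0 < a.ord (s ^ 2 - s - 1)})) j, Bad v s (ω.1.1 j) := by
      intro ω j
      refine hbad _ (Finset.mem_insert_of_mem (Finset.mem_biUnion.2 ⟨ω.1.1, ?_, ?_⟩))
      · exact hT.mem_toFinset.2 ω.2.1
      · exact Finset.mem_image_of_mem _ (Finset.mem_univ j)
    have hmain := integrality hS hsC hsr (hRB m hmon hdeg) hn act (fun ω => ω.1.1)
      (fun σ ω j => rfl) oo hoo (fun ω => ω.1.2) (fun σ ω => rfl) hxB hooB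
      (fun ω => good_of_ord_pos hS.vA s ω.2.2) u hu0 hudiv E hgood w hw hwdiv
    have heq : (fun ω : ↥({x : Fin g₀ → Place Qb F | IsCan n oo x} ×ˢ
      {a : Place Qb F | 0 < a.ord (s ^ 2 - s - 1)}) => eW n (cls (tupDiv ω.1.1 oo)) (cls E₀)) =
        fun ω => evD (u ω) E / evD w (tupDiv ω.1.1 oo) := by
      funext ω
      refine eW_eq hn ⟨degree_tupDiv _ _, rfl, hu0 ω, hudiv ω⟩ ⟨hEdeg, hEcls, hw, hwdiv⟩ ?_
      intro y
      by_contra hcon
      push Not at hcon
      have hG : Good v s y := hgood y hcon.2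
      rcases assembly_tupDiv_ne hcon.1 with rfl | ⟨j, rfl⟩
      · exact Bad.not_good hooB hG
      · exact Bad.not_good (hxB ω j) hG
    rw [heq]
    exact hmain

end Fermat.Agent.S19.M
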