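import Fermat.Agent.S19.M.Defs
import Fermat.Agent.S19.W.EvD

/-!
# S19 / M1 : canonical tuples: uniqueness, finiteness, Galois stability

`eq_of_onlyConst`: `f ∈ L(X)`, so `f` is constant.
`finite_isCan`: choose `j(x)`; the map `x ↦ (cls (tupDiv x oo), j(x))` to `J[n] × Fin (g₀+1)` has finite fibres: same
class and same `j` ⇒ `sumPts x - j ∞` and `sumPts x' - j ∞` are linearly equivalent (`cls_eq_iff`), effective, `L = K`
⇒ equal ⇒ `sumPts x = sumPts x'` ⇒ all `x' i` lie in the finite set `(sumPts x).support` (`one_le_sumPts_apply`);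
`Set.Finite.pi` / `Finite.of_injective` / `Set.Finite.of_finite_fibers`.
`IsCan.semi`: `cls_semi`, `SemilinearAut.ord_smul`, `divisor_smul_apply`, `smul_algebraMap`.
-/

set_option autoImplicit false

noncomputable section

namespace Fermat.Agent.S19.M

open AlgebraicCurve Polynomial Fermat.Agent.S24.FF Fermat.Agent.S27 Fermat.Agent.S19.I
  Fermat.Agent.S19.W Fermat.Agent.S19.R Fermat.Agent.GAL.KL Fermat.Agent.GAL.KLC

variable {F : Type} [Field F] [Algebra Qb F] [IsFF1 Qb F]

omit [IsFF1 Qb F] in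
/-- uniqueness of an effective divisor with `L = K` in its class. -/
theorem eq_of_onlyConst {X X' : Divisor Qb F} (hX : OnlyConst X) (hX' : 0 ≤ X') {f : F} (hf : f ≠ 0)
    (h : ∀ v : Place Qb F, X' v = X v + v.ord f) : X' = X := by
  have hmem : f ∈ riemannRochSpace X := by
    rw [mem_riemannRochSpace_iff]
    intro v
    right
    have h0 : (0 : ℤ) ≤ X' v := Finsupp.le_def.mp hX' v
    have h1 := h v
    omega
  obtain ⟨c, rfl⟩ := hX f hmem
  ext v
  rw [h v, ord_algebraMap, add_zero]

theorem degree_tupDiv {g₀ : ℕ} (x : Fin g₀ → Place Qb F) (oo : Place Qb F) :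
    Divisor.degree (tupDiv x oo) = 0 := by
  unfold tupDiv
  rw [map_sub, degree_sumPts, Divisor.degree_single, deg_eq_one]
  simp

omit [IsFF1 Qb F] in
theorem can_sumPts_semi (g : SemilinearAut Qb F) {g₀ : ℕ} (x : Fin g₀ → Place Qb F) :
    sumPts (fun j => g • x j) = g • sumPts x := by
  unfold sumPts
  rw [Finset.smul_sum]
  exact Finset.sum_congr rfl fun i _ => (SemilinearAut.smul_single g (x i) 1).symm

omit [IsFF1 Qb F] in
theorem tupDiv_semi (g : SemilinearAut Qb F) {oo : Place Qb F} (hg : g • oo = oo) {g₀ : ℕ}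
    (x : Fin g₀ → Place Qb F) : tupDiv (fun j => g • x j) oo = g • tupDiv x oo := by
  unfold tupDiv
  rw [smul_sub, can_sumPts_semi, SemilinearAut.smul_single, hg]

omit [IsFF1 Qb F] in
theorem OnlyConst.semi {X : Divisor Qb F} (h : OnlyConst X) (g : SemilinearAut Qb F) :
    OnlyConst (g • X) := by
  intro f hf
  rw [mem_riemannRochSpace_iff] at hf
  have hmem : g⁻¹ • f ∈ riemannRochSpace X := by
    rw [mem_riemannRochSpace_iff]
    intro v
    rcases hf (g • v) with h0 | h0
    · left
      rw [h0, smul_zero]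
    · right
      rw [SemilinearAut.divisor_smul_apply_smul] at h0
      have h1 := SemilinearAut.ord_smul g v (g⁻¹ • f)
      rw [smul_inv_smul] at h1
      rw [← h1]
      exact h0
  obtain ⟨c, hc⟩ := h _ hmem
  refine ⟨SemilinearAut.baseAut g c, ?_⟩
  rw [← SemilinearAut.smul_algebraMap, hc, smul_inv_smul]

/-- (M1b) stability. -/
theorem IsCan.semi {n : ℕ} {oo : Place Qb F} {g₀ : ℕ} {x : Fin g₀ → Place Qb F} (h : IsCan n oo x)
    (g : SemilinearAut Qb F) (hg : g • oo = oo) : IsCan n oo (fun j => g • x j) := by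
  obtain ⟨h1, j, hj, h2, h3⟩ := h
  have hX : sumPts (fun j => g • x j) - Finsupp.single oo (j : ℤ) =
      g • (sumPts x - Finsupp.single oo (j : ℤ)) := by
    rw [smul_sub, can_sumPts_semi, SemilinearAut.smul_single, hg]
  refine ⟨?_, j, hj, ?_, ?_⟩
  · rw [tupDiv_semi g hg, cls_semi]
    have := (DistribSMul.toAddMonoidHom (Pic0 Qb F) g).map_nsmul n (cls (tupDiv x oo))
    simp only [DistribSMul.toAddMonoidHom_apply] at this
    rw [← this, h1, smul_zero]
  · rw [hX, Finsupp.le_def]
    intro w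
    rw [SemilinearAut.divisor_smul_apply]
    exact Finsupp.le_def.mp h2 _
  · rw [hX]
    exact h3.semi g

/-- two canonical tuples with the same class and the same `j` have the same divisor. -/
theorem can_sumPts_eq {oo : Place Qb F} {g₀ : ℕ} {x x' : Fin g₀ → Place Qb F}
    (hc : cls (tupDiv x oo) = cls (tupDiv x' oo)) {j : ℕ}
    (h2 : OnlyConst (sumPts x - Finsupp.single oo (j : ℤ)))
    (h2' : 0 ≤ sumPts x' - Finsupp.single oo (j : ℤ)) : sumPts x' = sumPts x := by
  rw [eq_comm, cls_eq_iff (degree_tupDiv _ _) (degree_tupDiv _ _)] at hc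
  obtain ⟨f, hf, h⟩ := hc
  have := eq_of_onlyConst h2 h2' hf (fun v => by
    have h1 := h v
    simp only [tupDiv, Finsupp.sub_apply] at h1 ⊢
    omega)
  exact sub_left_injective this

open Classical in
/-- (M1a) finiteness. -/
theorem finite_isCan {n : ℕ} (hfin : Finite (Pic0.torsion Qb F n)) (oo : Place Qb F) (g₀ : ℕ) :
    {x : Fin g₀ → Place Qb F | IsCan n oo x}.Finite := by
  let jj : (Fin g₀ → Place Qb F) → ℕ := fun x => if h : IsCan n oo x then h.2.choose else 0
  have hjj : ∀ x, IsCan n oo x → jj x ≤ g₀ ∧ 0 ≤ sumPts x - Finsupp.single oo (jj x : ℤ) ∧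
      OnlyConst (sumPts x - Finsupp.single oo (jj x : ℤ)) := by
    intro x hx
    simp only [jj, dif_pos hx]
    exact hx.2.choose_spec
  refine Set.Finite.of_finite_fibers (fun x => (cls (tupDiv x oo), jj x)) ?_ ?_
  · refine Set.Finite.subset
      (Set.Finite.prod (s := (Pic0.torsion Qb F n : Set (Pic0 Qb F))) (t := Set.Iic g₀)
        (Set.toFinite _) (Set.finite_Iic g₀)) ?_
    rintro _ ⟨x, hx, rfl⟩
    refine ⟨?_, (hjj x hx).1⟩
    show cls (tupDiv x oo) ∈ Pic0.torsion Qb F n
    rw [Pic0.mem_torsion, natCast_zsmul]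
    exact hx.1
  · rintro _ ⟨x₀, hx₀, rfl⟩
    refine Set.Finite.subset
      (Set.Finite.pi (t := fun _ : Fin g₀ => ((sumPts x₀).support : Set (Place Qb F)))
        fun _ => Finset.finite_toSet _) ?_
    rintro x ⟨hx, hxe⟩
    have hxe' : (cls (tupDiv x oo), jj x) = (cls (tupDiv x₀ oo), jj x₀) := hxe
    have h1 : cls (tupDiv x₀ oo) = cls (tupDiv x oo) := (congrArg Prod.fst hxe').symm
    have h2 : jj x = jj x₀ := congrArg Prod.snd hxe'
    have h3 := (hjj x hx).2.1
    rw [h2] at h3
    have h4 := can_sumPts_eq h1 (hjj x₀ hx₀).2.2 h3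
    intro i _
    show x i ∈ ((sumPts x₀).support : Set (Place Qb F))
    rw [Finset.mem_coe, Finsupp.mem_support_iff, ← h4]
    have := one_le_sumPts_apply x i
    omega

end Fermat.Agent.S19.M
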