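import Fermat.Agent.S19.M.Assembly
import Fermat.Agent.S19.B.Export
import Fermat.Agent.S37.Defs
import Fermat.Agent.GAL.KLC.Main

/-!
# S19 / M6 : the concrete instance `F = FL ℚ̄ M`, `M` admissible, `ℓ ∤ M`

`liftLL_xF`: copy of `KLC.rootClosed_of` (`GAL/KLC/MainOf.lean`) with `KLB.exists_redW_LL_eq` instead of
`KLB.rootClosed_of_count`, inputs `spansStatement M`, `riStatement M`, `ctStatement M ℓ hM hℓ hℓM A hA` (`GAL/KLC/Main.lean`).
`galM_smul_xF`: `xF M` has integral `q`-coefficients (`coe_arithmeticGalois_smul`, `coeffMap`).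
`galM_smul_Pinf`: `S24.FF.place_ext_of_ord_nonneg`, `S37.Pinf_ord`, `SemilinearAut.ord_smul`, order of `coeffMap σ z`.
`weilInt_adm`: `weilInt_of_setting` with `B.setting`, `B.chart_xF`, `B.rb` (`B.sM M m = sOf (xF M) m` by `rfl`).
-/

set_option autoImplicit false

noncomputable section

namespace Fermat.Agent.S19.M

open AlgebraicCurve Polynomial Fermat.Agent.S24.FF Fermat.Agent.S27 Fermat.Agent.S19.I
  Fermat.Agent.S19.W Fermat.Agent.S19.R Fermat.Agent.GAL.KL Fermat.Agent.GAL.KLC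

open Fermat.Agent.GAL Fermat.Agent.S19.B

variable (M : ℕ) [NeZero M] (A : ValuationSubring Qb)

theorem liftLL_xF {ℓ : ℕ} (hM : AdmLevel M) (hℓ : ℓ.Prime) (hℓM : ¬ ℓ ∣ M) (hA : A.LiesOverPrime ℓ) :
    LiftLL (isRed A M) ⟨xF M, xF_mem_integer M A⟩ := by
  have : CharP (kA A) ℓ := Fermat.Agent.GR.charP_residueField hℓ hA
  obtain ⟨fZ, hfc, hf0, hfi⟩ := exists_cusp_basis M ℓ hℓ (kA A)
  obtain ⟨a₀, ha₀⟩ := KLB.exists_redW_LL_eq (isRed A M) (xF_mem_integer M A)
    (xF'_mem_integer M A) (mX_pos M)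
    (order_rho_xF M A) (order_rho_xF' M A) (spansStatement M) (riStatement M)
    (fun j => psR (kA A) (fZ j)) hfi (fun j => order_psR_pos _ (hf0 j) (hfi.ne_zero j))
    (fun z hz j => ctStatement M ℓ hM hℓ hℓM A hA _ (z : FL Qb M).2 _ (hasRed_rho A M z)
      (by rw [rho_xF] at hz; exact hz) _ (hfc j))
  exact ⟨a₀, fun a ha => (ha₀ a ha).1⟩

theorem galM_smul_xF (σ : S19.GQ) : galM M σ • xF M = xF M := by
  apply Subtype.ext
  rw [ModularCurve.coe_arithmeticGalois_smul]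
  change ModularCurve.coeffMap (σ : Qb →+* Qb)
    (ModularCurve.coeffMap (Int.castRingHom Qb) (XZ M)) = ModularCurve.coeffMap (Int.castRingHom Qb) (XZ M)
  rw [ModularCurve.coeffMap_coeffMap]
  exact ModularCurve.coeffMap_congr (RingHom.ext_int _ _) _

theorem concrete_order_coeffMap (σ : S19.GQ) (x : LaurentSeries Qb) :
    (ModularCurve.coeffMap (σ : Qb →+* Qb) x).order = x.order := by
  by_cases hx : x = 0
  · rw [hx, map_zero]
  have hx' : ModularCurve.coeffMap (σ : Qb →+* Qb) x ≠ 0 :=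
    Fermat.Agent.GR.coeffMap_ne_zero_of_injective (RingHom.injective _) hx
  apply le_antisymm
  · apply HahnSeries.order_le_of_coeff_ne_zero
    rw [ModularCurve.coeffMap_coeff]
    exact (_root_.map_ne_zero _).mpr (HahnSeries.coeff_order_eq_zero.not.mpr hx)
  · apply HahnSeries.order_le_of_coeff_ne_zero
    have := HahnSeries.coeff_order_eq_zero.not.mpr hx'
    rw [ModularCurve.coeffMap_coeff] at this
    exact (_root_.map_ne_zero _).mp this

theorem galM_smul_Pinf (σ : S19.GQ) : galM M σ • S37.Pinf M = S37.Pinf M := by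
  apply place_ext_of_ord_nonneg
  intro x _
  have h := SemilinearAut.ord_smul (galM M σ) (S37.Pinf M) ((galM M σ)⁻¹ • x)
  rw [smul_inv_smul] at h
  rw [h, S37.Pinf_ord, S37.Pinf_ord]
  have h2 := concrete_order_coeffMap σ (((galM M σ)⁻¹ • x : FL Qb M) : LaurentSeries Qb)
  rw [← ModularCurve.coe_arithmeticGalois_smul] at h2
  change (((galM M σ • (galM M σ)⁻¹ • x : FL Qb M)) : LaurentSeries Qb).order = _ at h2
  rw [smul_inv_smul] at h2
  rw [h2]

theorem weilInt_adm {ℓ : ℕ} (hM : AdmLevel M) (hℓ : ℓ.Prime) (hℓM : ¬ ℓ ∣ M) (hA : A.LiesOverPrime ℓ)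
    {n : ℕ} (hn : 0 < n) : WeilInt A (galM M) n :=
  weilInt_of_setting hℓ hA (B.setting M A) (isRed A M) ⟨xF M, xF_mem_integer M A⟩
    (B.chart_xF M A) (liftLL_xF M A hM hℓ hℓM hA) (galM_smul_xF M)
    (fun m hm hmd => B.rb M A hℓ hA m hm hmd) (S37.Pinf M) (galM_smul_Pinf M) hn

end Fermat.Agent.S19.M
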