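import Fermat.Agent.S19.I.Defs
import Fermat.Agent.S27.A.Riemann

/-!
# S19 / M : canonical tuples, the `G`-set `Ω`, assembly at an admissible level.  Definitions (no sorry).

* `OnlyConst X` : `L(X) = K`
* `IsCan n oo x`: the tuple `x = (x_1..x_g₀)` is canonical: `n [∑ (x_j - ∞)] = 0` and for some `j ≤ g₀` the divisor
  `∑ x_i - j ∞` is effective with `L = K` (so it is the unique effective divisor in its class)
* `mP ℓ r`      : the polynomial `X^(ℓ^r) - X + 1 ∈ ℤ[X]`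
* `WeilInt A gal n` : THE EXPORT of the block: a finite `G`-set `Ω` with an equivariant surjection `Pt : Ω → J[n]` such
  that all `ω ↦ e_n(Pt ω, Q)` lie in `𝒮_G(Ω)`.
-/

set_option autoImplicit false

noncomputable section

namespace Fermat.Agent.S19.M

open AlgebraicCurve Polynomial Fermat.Agent.S24.FF Fermat.Agent.S27 Fermat.Agent.S19.I
  Fermat.Agent.S19.W

/-- `L(X) = K`. -/
def OnlyConst {K F : Type*} [Field K] [Field F] [Algebra K F] (X : Divisor K F) : Prop :=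
  ∀ f : F, f ∈ riemannRochSpace X → f ∈ Set.range (algebraMap K F)

variable {F : Type} [Field F] [Algebra Qb F]

/-- canonical tuples. -/
def IsCan (n : ℕ) (oo : Place Qb F) {g₀ : ℕ} (x : Fin g₀ → Place Qb F) : Prop :=
  n • cls (tupDiv x oo) = 0 ∧
    ∃ j : ℕ, j ≤ g₀ ∧ 0 ≤ sumPts x - Finsupp.single oo (j : ℤ) ∧
      OnlyConst (sumPts x - Finsupp.single oo (j : ℤ))

/-- `X^(ℓ^r) - X + 1`. -/
def mP (ℓ r : ℕ) : ℤ[X] := X ^ (ℓ ^ r) - X + 1

/-- the chart `s = 1/m(x)`. -/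
def sOf (x : F) (m : ℤ[X]) : F := (aeval x (m.map (Int.castRingHom Qb)))⁻¹

/-- **integrality of the Weil pairing at level `n`** (export of the block). -/
def WeilInt (A : ValuationSubring Qb) (gal : GQ →* SemilinearAut Qb F) (n : ℕ) : Prop :=
  ∃ (Ω : Type) (_ : Finite Ω) (act : GQ → Ω → Ω) (Pt : Ω → Pic0 Qb F),
    (∀ σ, Function.Bijective (act σ)) ∧ (∀ ω, n • Pt ω = 0) ∧
    (∀ P : Pic0 Qb F, n • P = 0 → ∃ ω, Pt ω = P) ∧
    (∀ σ ω, Pt (act σ ω) = gal σ • Pt ω) ∧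
    ∀ Q : Pic0 Qb F, n • Q = 0 → (fun ω => eW n (Pt ω) Q) ∈ SG A act

end Fermat.Agent.S19.M
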